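import Fermat.Agent.S14x.Glue.H24_Val
import Fermat.Agent.S14x.Asm.Defs

/-!
# S14 / GLUE (helper24): the instantiation `StNoExt p → ConcreteNoL p` and `StGLUE p`

`K := ↥(Kc p)` (`= ℚ(ζ_p)` inside `ℚ̄`), `L := ↥Lc` as types, with the algebra structure coming
from the inclusion `Kc p ≤ Lc`.

* degree: `finrank K L = p` from the relative index of the fixing subgroups;
* unramified: `H24_Val` (a valuation subring of `ℚ̄` above a prime of `𝓞 L`) and lifting of
  automorphisms;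
* twist: lifting of automorphisms.

Final products: `concrete_of_noExt`, `stGLUE : Asm.StGLUE p`, `extVanishingCts_of_noExt`.
-/

set_option autoImplicit false
set_option linter.unusedSectionVars false
set_option linter.unusedVariables false
set_option linter.style.haveILetI false

namespace Fermat.Agent.S14x.Glue

open NumberField IntermediateField

variable {p : ℕ} [Fact p.Prime]

theorem concrete_of_noExt (h : Asm.StNoExt p) : ConcreteNoL p := by
  intro Lc hKL hopen hnorm hidx hunr htw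
  have hpp : p.Prime := Fact.out
  haveI : NeZero p := ⟨hpp.ne_zero⟩
  haveI : IsGalois ℚ Qb := isGalois_rat'
  haveI hfdL : FiniteDimensional ℚ ↥Lc := (InfiniteGalois.isOpen_iff_finite Lc).mp hopen
  haveI hgalL : IsGalois ℚ ↥Lc := (InfiniteGalois.normal_iff_isGalois Lc).mp hnorm
  haveI : NumberField ↥Lc := ⟨⟩
  letI algKL : Algebra ↥(Kc p) ↥Lc := (IntermediateField.inclusion hKL).toRingHom.toAlgebra
  haveI : IsScalarTower ℚ ↥(Kc p) ↥Lc := IsScalarTower.of_algebraMap_eq (fun x => rfl)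
  haveI : IsScalarTower ↥(Kc p) ↥Lc Qb := IsScalarTower.of_algebraMap_eq (fun x => rfl)
  haveI hfdK : FiniteDimensional ℚ ↥(Kc p) := FiniteDimensional.left ℚ ↥(Kc p) ↥Lc
  haveI : NumberField ↥(Kc p) := ⟨⟩
  haveI : IsCyclotomicExtension {p} ℚ ↥(Kc p) :=
    (zeta_spec p).intermediateField_adjoin_isCyclotomicExtension ℚ
  haveI : IsGalois ↥(Kc p) ↥Lc := IsGalois.tower_top_of_isGalois ℚ ↥(Kc p) ↥Lc
  -- lifting automorphisms of `Lc / Kc` to `G_K`
  have hlift : ∀ σ : ↥Lc ≃ₐ[↥(Kc p)] ↥Lc, ∃ σ' : GQ, σ' ∈ (Kc p).fixingSubgroup ∧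
      ∀ y : ↥Lc, ((σ y : ↥Lc) : Qb) = σ' (y : Qb) := by
    intro σ
    obtain ⟨σ', hσ'⟩ := AlgEquiv.restrictNormalHom_surjective Qb (σ.restrictScalars ℚ)
    have hy : ∀ y : ↥Lc, ((σ y : ↥Lc) : Qb) = σ' (y : Qb) := by
      intro y
      have e1 : ((AlgEquiv.restrictNormalHom ↥Lc σ' y : ↥Lc) : Qb) = σ' (y : Qb) :=
        AlgEquiv.restrictNormal_commutes σ' ↥Lc y
      rw [← e1, hσ']
      rfl
    refine ⟨σ', ?_, hy⟩
    rw [IntermediateField.mem_fixingSubgroup_iff]
    intro x hx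
    have e2 := hy ⟨x, hKL hx⟩
    have e3 : σ ⟨x, hKL hx⟩ = ⟨x, hKL hx⟩ := σ.commutes ⟨x, hx⟩
    rw [e3] at e2
    exact e2.symm
  refine h ↥(Kc p) ↥Lc ?_ ?_ ?_
  · -- degree
    have h1 : Module.finrank ℚ ↥Lc = Lc.fixingSubgroup.index :=
      IntermediateField.finrank_eq_fixingSubgroup_index Qb Lc
    have h2 : Module.finrank ℚ ↥(Kc p) = (Kc p).fixingSubgroup.index :=
      IntermediateField.finrank_eq_fixingSubgroup_index Qb (Kc p)
    have hle : Lc.fixingSubgroup ≤ (Kc p).fixingSubgroup := by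
      intro σ hσ
      rw [IntermediateField.mem_fixingSubgroup_iff] at hσ ⊢
      exact fun x hx => hσ x (hKL hx)
    have h3 := Subgroup.relIndex_mul_index hle
    have h4 := Module.finrank_mul_finrank ℚ ↥(Kc p) ↥Lc
    have hpos : 0 < Module.finrank ℚ ↥(Kc p) := Module.finrank_pos
    rw [h1, h2, ← h3, hidx] at h4
    rw [h2] at hpos
    have h5 : (Kc p).fixingSubgroup.index * Module.finrank ↥(Kc p) ↥Lc
        = (Kc p).fixingSubgroup.index * p := by rw [h4, mul_comm]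
    exact Nat.eq_of_mul_eq_mul_left hpos h5
  · -- unramified
    intro P hP hP0 σ hσ
    obtain ⟨q, A, hq, hA, hPA⟩ := exists_valuationSubring_of_prime Lc P hP hP0
    obtain ⟨σ', hσ'mem, hσ'⟩ := hlift σ
    have hfix : σ' ∈ Lc.fixingSubgroup := by
      refine hunr q hq A hA σ' hσ'mem ?_
      intro x hx hint
      have hint' : IsIntegral ℤ (⟨x, hx⟩ : ↥Lc) :=
        (isIntegral_algebraMap_iff (algebraMap ↥Lc Qb).injective).mp hint
      set X : 𝓞 ↥Lc := ⟨⟨x, hx⟩, hint'⟩ with hX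
      have h1 := hPA _ (hσ X)
      have h2 : (((σ • X - X : 𝓞 ↥Lc) : ↥Lc) : Qb) = σ' x - x := by
        have : ((σ • X - X : 𝓞 ↥Lc) : ↥Lc) = σ (⟨x, hx⟩ : ↥Lc) - ⟨x, hx⟩ := rfl
        rw [this, ← hσ' ⟨x, hx⟩]
        rfl
      rwa [h2] at h1
    rw [IntermediateField.mem_fixingSubgroup_iff] at hfix
    ext y
    rw [hσ' y, hfix _ y.2]
    rfl
  · -- twist
    intro ζ τ s hζ hτ σ x
    obtain ⟨σ', hσ'mem, hσ'⟩ := hlift σ
    obtain ⟨τ', hτ'0⟩ := AlgEquiv.restrictNormalHom_surjective Qb τ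
    have hτ' : ∀ y : ↥Lc, ((τ y : ↥Lc) : Qb) = τ' (y : Qb) := by
      intro y
      have e1 : ((AlgEquiv.restrictNormalHom ↥Lc τ' y : ↥Lc) : Qb) = τ' (y : Qb) :=
        AlgEquiv.restrictNormal_commutes τ' ↥Lc y
      rw [← e1, hτ'0]
    have hζ' : IsPrimitiveRoot ((ζ : ↥Lc) : Qb) p :=
      hζ.map_of_injective (algebraMap ↥Lc Qb).injective
    obtain ⟨i, -, hi⟩ := hζ'.eq_pow_of_pow_eq_one (zeta_spec p).pow_eq_one
    have hz : τ' (zeta p) = zeta p ^ s := by
      rw [← hi, map_pow, ← hτ' ζ, hτ]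
      push_cast
      rw [← pow_mul, ← pow_mul, mul_comm]
    have hmem := htw τ' σ' s hσ'mem hz
    rw [IntermediateField.mem_fixingSubgroup_iff] at hmem
    have hpow : ∀ (n : ℕ) (y : ↥Lc), (((σ ^ n) y : ↥Lc) : Qb) = (σ' ^ n) (y : Qb) := by
      intro n
      induction n with
      | zero => intro y; simp
      | succ n ih =>
        intro y
        rw [pow_succ, pow_succ, AlgEquiv.mul_apply, AlgEquiv.mul_apply, ih, hσ']
    apply Subtype.ext
    rw [hσ', hτ', hτ', hpow]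
    have := hmem _ (σ (τ x)).2
    rw [hσ', hτ'] at this
    simp only [AlgEquiv.mul_apply] at this
    rw [← this]
    congr 2
    simp

/-- **Deliverable of GLUE**: `Asm.StGLUE p`. -/
theorem stGLUE : Asm.StGLUE p := fun _ h => core_of_concrete (concrete_of_noExt h)

/-- The top of the tree in one step: `ExtVanishingCts p` from the number-field statement. -/
theorem extVanishingCts_of_noExt (hp3 : 3 ≤ p) (h : Asm.StNoExt p) :
    ExtCitation.ExtVanishingCts p :=
  extVanishingCts_of_core hp3 (stGLUE hp3 h)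

end Fermat.Agent.S14x.Glue
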