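import Fermat.Agent.S14x.Glue.H24_Val
import Fermat.Agent.S14x.Asm.Defs

/-!
# S14, package GLUE (helper12): the instantiation `StNoExt p → ConcreteNoL p` (hedge of
`H24_Inst.lean`, all names prefixed `h12_`)

The intermediate fields `Kc p = ℚ(ζ_p) ≤ Lc` of `ℚ̄ / ℚ` are turned into the abstract number
fields `K := ↥(Kc p)`, `L := ↥Lc` of `Asm.StNoExt`.
-/

set_option autoImplicit false
set_option linter.unusedSectionVars false
set_option linter.unusedVariables false
set_option linter.style.haveILetI false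

namespace Fermat.Agent.S14x.Glue

open ExtCitation IntermediateField NumberField

noncomputable section

variable {p : ℕ} [Fact p.Prime]

/-- `ℚ̄ / ℚ` is Galois. -/
theorem h12_isGalois_rat : IsGalois ℚ Qb := isGalois_rat'

theorem h12_isIntegral_rat : Algebra.IsIntegral ℚ Qb := by
  haveI : Algebra.IsAlgebraic ℚ Qb := AlgebraicClosure.isAlgebraic ℚ
  exact Algebra.IsAlgebraic.isIntegral

/-- Every automorphism of a normal subfield is the restriction of an element of `Γ`. -/
theorem h12_exists_lift (M : IntermediateField ℚ Qb) [Normal ℚ M] (τ : M ≃ₐ[ℚ] M) :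
    ∃ σ : GQ, ∀ x : M, σ (x : Qb) = ((τ x : M) : Qb) := by
  haveI := h12_isGalois_rat
  obtain ⟨σ₀, hσ₀⟩ := AlgEquiv.restrictNormalHom_surjective Qb τ
  refine ⟨σ₀, fun x => ?_⟩
  rw [← hσ₀]
  exact (AlgEquiv.restrictNormal_commutes σ₀ M x).symm

/-- The degree of a finite Galois subfield is the index of its fixing subgroup. -/
theorem h12_finrank_eq_index (M : IntermediateField ℚ Qb) [FiniteDimensional ℚ M]
    [IsGalois ℚ M] : Module.finrank ℚ M = M.fixingSubgroup.index := by
  haveI := h12_isGalois_rat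
  have hsurj : Function.Surjective (AlgEquiv.restrictNormalHom M : GQ →* (M ≃ₐ[ℚ] M)) :=
    AlgEquiv.restrictNormalHom_surjective Qb
  have e := QuotientGroup.quotientKerEquivOfSurjective _ hsurj
  have hker : (AlgEquiv.restrictNormalHom M : GQ →* (M ≃ₐ[ℚ] M)).ker = M.fixingSubgroup :=
    @IntermediateField.restrictNormalHom_ker ℚ Qb _ _ _ M (inferInstance : IsGalois ℚ M).to_normal
  rw [← IsGalois.card_aut_eq_finrank, Subgroup.index_eq_card, ← hker]
  exact (Nat.card_congr e.toEquiv).symm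

theorem h12_finiteDimensional_Kc : FiniteDimensional ℚ (Kc p) := by
  haveI := h12_isIntegral_rat
  exact IntermediateField.adjoin.finiteDimensional (Algebra.IsIntegral.isIntegral _)

theorem h12_isCyclotomicExtension_Kc : IsCyclotomicExtension {p} ℚ (Kc p) := by
  haveI := h12_isIntegral_rat
  haveI : NeZero p := ⟨(Fact.out : p.Prime).ne_zero⟩
  exact (zeta_spec p).intermediateField_adjoin_isCyclotomicExtension ℚ

theorem h12_isGalois_Kc : IsGalois ℚ (Kc p) := by
  haveI := h12_isCyclotomicExtension_Kc (p := p)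
  haveI : NeZero p := ⟨(Fact.out : p.Prime).ne_zero⟩
  exact IsCyclotomicExtension.isGalois {p} ℚ (Kc p)

/-- Powers of a lift restrict to powers. -/
theorem h12_pow_apply {M : IntermediateField ℚ Qb} {F : Type*} [FunLike F M M]
    (σ' : GQ) (σ : F) (hσ : ∀ x : M, σ' (x : Qb) = ((σ x : M) : Qb)) (n : ℕ) (x : M) :
    (σ' ^ n) (x : Qb) = (((σ : M → M)^[n] x : M) : Qb) := by
  induction n generalizing x with
  | zero => simp
  | succ n ih =>
    rw [pow_succ, AlgEquiv.mul_apply, hσ, ih, Function.iterate_succ_apply]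

theorem h12_algEquiv_pow_apply {K L : Type*} [Field K] [Field L] [Algebra K L] (σ : L ≃ₐ[K] L)
    (n : ℕ) (x : L) : (σ ^ n) x = (σ : L → L)^[n] x := by
  induction n generalizing x with
  | zero => simp
  | succ n ih =>
    rw [pow_succ, AlgEquiv.mul_apply, ih, Function.iterate_succ_apply]

theorem h12_concrete_of_noExt (h : Asm.StNoExt p) : ConcreteNoL p := by
  intro Lc hKL hopen hnorm hidx hunr htw
  haveI := h12_isGalois_rat
  have hpp : p.Prime := Fact.out
  haveI : NeZero p := ⟨hpp.ne_zero⟩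
  -- instances
  haveI hfinL : FiniteDimensional ℚ Lc := (InfiniteGalois.isOpen_iff_finite Lc).mp hopen
  haveI hgalL : IsGalois ℚ Lc := (InfiniteGalois.normal_iff_isGalois Lc).mp hnorm
  haveI hfinK : FiniteDimensional ℚ (Kc p) := h12_finiteDimensional_Kc
  haveI hgalK : IsGalois ℚ (Kc p) := h12_isGalois_Kc
  haveI : NumberField Lc := { to_charZero := inferInstance, to_finiteDimensional := hfinL }
  haveI : NumberField (Kc p) := { to_charZero := inferInstance, to_finiteDimensional := hfinK }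
  letI : Algebra (Kc p) Lc := (inclusion hKL).toRingHom.toAlgebra
  haveI : IsScalarTower ℚ (Kc p) Lc := IsScalarTower.of_algebraMap_eq (fun _ => rfl)
  haveI : IsCyclotomicExtension {p} ℚ (Kc p) := h12_isCyclotomicExtension_Kc
  haveI : IsGalois (Kc p) Lc := IsGalois.tower_top_of_isGalois ℚ (Kc p) Lc
  -- lifting elements of `Gal(L/K)`
  have hlift : ∀ σ : Lc ≃ₐ[Kc p] Lc, ∃ σ' : GQ, σ' ∈ (Kc p).fixingSubgroup ∧
      ∀ x : Lc, σ' (x : Qb) = ((σ x : Lc) : Qb) := by
    intro σ
    obtain ⟨σ', hσ'⟩ := h12_exists_lift Lc (σ.restrictScalars ℚ)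
    refine ⟨σ', ?_, hσ'⟩
    rw [IntermediateField.mem_fixingSubgroup_iff]
    intro x hx
    have h1 := hσ' (algebraMap (Kc p) Lc ⟨x, hx⟩)
    rw [AlgEquiv.restrictScalars_apply, σ.commutes] at h1
    exact h1
  refine h (Kc p) Lc ?_ ?_ ?_
  · -- the degree
    have h1 := Module.finrank_mul_finrank ℚ (Kc p) Lc
    rw [h12_finrank_eq_index Lc, h12_finrank_eq_index (Kc p)] at h1
    have hle : Lc.fixingSubgroup ≤ (Kc p).fixingSubgroup := by
      intro σ hσ
      rw [IntermediateField.mem_fixingSubgroup_iff] at hσ ⊢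
      exact fun x hx => hσ x (hKL hx)
    rw [← Subgroup.relIndex_mul_index hle, hidx, mul_comm] at h1
    have h2 : (Kc p).fixingSubgroup.index ≠ 0 := by
      rw [← h12_finrank_eq_index (Kc p)]
      exact Module.finrank_pos.ne'
    exact Nat.eq_of_mul_eq_mul_right (Nat.pos_of_ne_zero h2) h1
  · -- unramified everywhere
    intro P hP hP0 σ hσ
    obtain ⟨q, A, hq, hA, hPA⟩ := exists_valuationSubring_of_prime Lc P hP hP0
    obtain ⟨σ', hσ'⟩ := hlift σ
    have hmem := hunr q hq A hA σ' hσ'.1 (by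
      intro x hx hint
      have hint' : IsIntegral ℤ (⟨x, hx⟩ : Lc) :=
        (isIntegral_algebraMap_iff (algebraMap Lc Qb).injective).mp hint
      have h1 := hPA _ (hσ ⟨⟨x, hx⟩, hint'⟩)
      have h2 := hσ'.2 ⟨x, hx⟩
      rw [h2]
      exact h1)
    ext x
    have h3 := (IntermediateField.mem_fixingSubgroup_iff _ _).mp hmem (x : Qb) x.2
    rw [hσ'.2 x] at h3
    exact h3
  · -- the twist
    intro ζ τ s hζ hτζ σ x
    obtain ⟨τ', hτ'⟩ := h12_exists_lift Lc τ
    obtain ⟨σ', hσK, hσ'⟩ := hlift σ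
    -- `zeta p` as an element of `L`
    have hzL : zeta p ∈ Lc := hKL (IntermediateField.mem_adjoin_simple_self ℚ (zeta p))
    set z : Lc := ⟨zeta p, hzL⟩ with hz
    have hzp : z ^ p = 1 := by
      apply Subtype.ext
      show (zeta p) ^ p = 1
      exact (zeta_spec p).pow_eq_one
    obtain ⟨m, -, hm⟩ := hζ.eq_pow_of_pow_eq_one hzp
    have hτz : τ z = z ^ s := by
      rw [← hm, map_pow, hτζ, ← pow_mul, ← pow_mul, mul_comm]
    have hτzeta : τ' (zeta p) = zeta p ^ s := by
      have h1 := hτ' z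
      rw [hτz] at h1
      exact h1
    have hρ := htw τ' σ' s hσK hτzeta
    have h2 := (IntermediateField.mem_fixingSubgroup_iff _ _).mp hρ ((σ (τ x) : Lc) : Qb)
      (σ (τ x)).2
    rw [AlgEquiv.mul_apply, AlgEquiv.mul_apply, AlgEquiv.mul_apply, ← hσ' (τ x), ← hτ' x,
      ← AlgEquiv.mul_apply σ'⁻¹ σ', inv_mul_cancel, AlgEquiv.one_apply,
      ← AlgEquiv.mul_apply τ'⁻¹ τ', inv_mul_cancel, AlgEquiv.one_apply,
      h12_pow_apply σ' σ hσ' s x, ← h12_algEquiv_pow_apply σ s x, hτ' ((σ ^ s) x),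
      hτ' x, hσ' (τ x)] at h2
    exact (Subtype.ext h2).symm

/-- **Deliverable of GLUE**: `Core p` from the number-field statement `StNoExt p`. -/
theorem h12_stGLUE (p : ℕ) [Fact p.Prime] : Asm.StGLUE p :=
  fun _ h => core_of_concrete (h12_concrete_of_noExt h)

end

end Fermat.Agent.S14x.Glue
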