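import Fermat.Agent.S14x.Glue.H24_Galois
import Fermat.Agent.S13.G.H27_Lift

/-!
# S14 / GLUE (helper24): `Core p` from the concrete statement `ConcreteNoL p`

`ConcreteNoL p`: there is no intermediate field `ℚ(ζ_p) ≤ L` of `ℚ̄ / ℚ`, finite and Galois over
`ℚ`, of degree `p` over `ℚ(ζ_p)`, unramified at every prime (elementwise finite-level inertia is
trivial), with twist `ω⁻¹`.
-/

set_option autoImplicit false
set_option linter.unusedSectionVars false
set_option linter.unusedVariables false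
set_option linter.style.haveILetI false

namespace Fermat.Agent.S14x.Glue

open ExtCitation IntermediateField

/-- The concrete form of "no such `L`", for intermediate fields of `ℚ̄ / ℚ`. -/
def ConcreteNoL (p : ℕ) [Fact p.Prime] : Prop :=
  ∀ (Lc : IntermediateField ℚ Qb), Kc p ≤ Lc → IsOpen (Lc.fixingSubgroup : Set GQ) →
    Lc.fixingSubgroup.Normal →
    Lc.fixingSubgroup.relIndex (Kc p).fixingSubgroup = p →
    (∀ q : ℕ, q.Prime → ∀ A : ValuationSubring Qb, A.LiesOverPrime q →
      ∀ σ ∈ (Kc p).fixingSubgroup,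
        (∀ x ∈ Lc, IsIntegral ℤ x → σ x - x ∈ A.nonunits) → σ ∈ Lc.fixingSubgroup) →
    (∀ (τ σ : GQ) (k : ℕ), σ ∈ (Kc p).fixingSubgroup → τ (zeta p) = zeta p ^ k →
      τ * σ ^ k * τ⁻¹ * σ⁻¹ ∈ Lc.fixingSubgroup) →
    False

variable {p : ℕ} [Fact p.Prime]

namespace BHyp

variable {b : GQ → ZMod p} (hb : BHyp p b)

include hb

/-- `b` as a homomorphism on `G_K = ker χ`. -/
def hom : (cycloChar p).ker →* Multiplicative (ZMod p) where
  toFun σ := Multiplicative.ofAdd (b σ)
  map_one' := by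
    show Multiplicative.ofAdd (b 1) = 1
    rw [hb.map_one]; rfl
  map_mul' σ τ := by
    show Multiplicative.ofAdd (b (σ * τ)) = Multiplicative.ofAdd (b σ) * Multiplicative.ofAdd (b τ)
    rw [hb.add σ τ (MonoidHom.mem_ker.mp σ.2) (MonoidHom.mem_ker.mp τ.2)]
    rfl

theorem hom_ker : hb.hom.ker = hb.ker.subgroupOf (cycloChar p).ker := by
  ext σ
  rw [MonoidHom.mem_ker, Subgroup.mem_subgroupOf, hb.mem_ker]
  constructor
  · intro h
    exact ⟨MonoidHom.mem_ker.mp σ.2, h⟩
  · intro h
    exact h.2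

theorem hom_surjective {σ₀ : GQ} (h1 : cycloChar p σ₀ = 1) (h2 : b σ₀ ≠ 0) :
    Function.Surjective hb.hom := by
  have hpp : p.Prime := Fact.out
  haveI : NeZero p := ⟨hpp.ne_zero⟩
  intro c
  set n : ℕ := (Multiplicative.toAdd c * (b σ₀)⁻¹).val with hn
  have hmem : σ₀ ^ n ∈ (cycloChar p).ker := by
    rw [MonoidHom.mem_ker, _root_.map_pow, h1, one_pow]
  refine ⟨⟨σ₀ ^ n, hmem⟩, ?_⟩
  show Multiplicative.ofAdd (b (σ₀ ^ n)) = c
  rw [hb.map_pow h1, hn, ZMod.natCast_val, ZMod.cast_id', id, inv_mul_cancel_right₀ h2]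
  rfl

theorem relIndex_ker {σ₀ : GQ} (h1 : cycloChar p σ₀ = 1) (h2 : b σ₀ ≠ 0) :
    hb.ker.relIndex (cycloChar p).ker = p := by
  rw [Subgroup.relIndex, ← hb.hom_ker, Subgroup.index_ker,
    MonoidHom.range_eq_top.mpr (hb.hom_surjective h1 h2), Subgroup.card_top]
  simp [Nat.card_eq_fintype_card]

end BHyp


/-- Every nontrivial valuation subring of `ℚ̄` whose maximal ideal contains a positive integer
lies over a prime number. -/
theorem exists_prime_liesOver (A : ValuationSubring Qb) {n : ℕ} (hn : 0 < n)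
    (hA : (n : Qb) ∈ A.nonunits) : ∃ q : ℕ, q.Prime ∧ A.LiesOverPrime q := by
  induction n using Nat.strong_induction_on with
  | _ n ih =>
    by_cases hp : n.Prime
    · exact ⟨n, hp, hA⟩
    · have hn1 : n ≠ 1 := by
        rintro rfl
        rw [Nat.cast_one] at hA
        have h1 := (ValuationSubring.mem_nonunits_iff A).mp hA
        rw [A.valuation.map_one] at h1
        exact lt_irrefl _ h1
      obtain ⟨a, ha, hlt, hne⟩ : ∃ a, a ∣ n ∧ a < n ∧ a ≠ 1 := by
        have h2 : 2 ≤ n := by omega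
        obtain ⟨a, ha1, ha2, ha3⟩ := (Nat.not_prime_iff_exists_dvd_lt h2).mp hp
        exact ⟨a, ha1, ha3, by omega⟩
      obtain ⟨c, rfl⟩ := ha
      have ha0 : 0 < a := Nat.pos_of_ne_zero (by rintro rfl; simp at hn)
      have hc0 : 0 < c := Nat.pos_of_ne_zero (by rintro rfl; simp at hn)
      have hc : c < a * c := by
        have : 1 < a := by omega
        nlinarith
      rw [Nat.cast_mul] at hA
      have hmemA : ∀ m : ℕ, (m : Qb) ∈ A := fun m => natCast_mem A m
      rcases ((ValuationSubring.mem_nonunits_iff A).mp hA : A.valuation _ < 1) with h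
      rw [map_mul] at h
      have ha1 : A.valuation (a : Qb) ≤ 1 := (A.valuation_le_one_iff _).mpr (hmemA a)
      have hc1 : A.valuation (c : Qb) ≤ 1 := (A.valuation_le_one_iff _).mpr (hmemA c)
      by_cases hav : A.valuation (a : Qb) < 1
      · exact ih a hlt ha0 ((ValuationSubring.mem_nonunits_iff A).mpr hav)
      · have hav' : A.valuation (a : Qb) = 1 := le_antisymm ha1 (not_lt.mp hav)
        rw [hav', one_mul] at h
        exact ih c hc hc0 ((ValuationSubring.mem_nonunits_iff A).mpr h)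

/-- **GLUE, Galois side**: `Core p` follows from the concrete statement. -/
theorem core_of_concrete (h : ConcreteNoL p) : Core p := by
  intro b h1 h2 h3 h4 h5 σ₀ hσ₀
  by_contra hne
  have hb : BHyp p b := ⟨h1, h2, h3⟩
  haveI := isGalois_rat'
  set Lc : IntermediateField ℚ Qb := IntermediateField.fixedField hb.ker with hLc
  have hfix : Lc.fixingSubgroup = hb.ker :=
    InfiniteGalois.fixingSubgroup_fixedField ⟨hb.ker, hb.ker_isClosed⟩
  have hKL : Kc p ≤ Lc := by
    rw [hLc, IntermediateField.le_iff_le, fixingSubgroup_Kc]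
    exact hb.ker_le
  have hopen : IsOpen (Lc.fixingSubgroup : Set GQ) := by rw [hfix]; exact hb.ker_isOpen
  have hnormal : Lc.fixingSubgroup.Normal := by rw [hfix]; exact hb.ker_normal
  haveI : FiniteDimensional ℚ Lc := (InfiniteGalois.isOpen_iff_finite Lc).mp hopen
  haveI : IsGalois ℚ Lc := (InfiniteGalois.normal_iff_isGalois Lc).mp hnormal
  refine h Lc hKL hopen hnormal ?_ ?_ ?_
  · rw [hfix, fixingSubgroup_Kc]
    exact hb.relIndex_ker hσ₀ hne
  · -- unramified
    intro q hq A hA σ hσ hin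
    rw [mem_fixingSubgroup_Kc_iff] at hσ
    have hτ : Fermat.Agent.S13.G.FinInertia A Lc (AlgEquiv.restrictNormalHom Lc σ) := by
      intro x hx
      have e : ((AlgEquiv.restrictNormalHom Lc σ x : Lc) : Qb) = σ (x : Qb) :=
        AlgEquiv.restrictNormal_commutes σ Lc x
      rw [e]
      refine hin x x.2 ?_
      exact (isIntegral_algebraMap_iff (algebraMap Lc Qb).injective).mpr hx
    obtain ⟨σ', hσ'I, hσ'⟩ := Fermat.Agent.S13.G.exists_inertia_lift A q hq hA Lc _ hτ
    have hagree : ∀ x ∈ Lc, σ' x = σ x := by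
      intro x hx
      have := hσ' ⟨x, hx⟩
      rw [this]
      exact AlgEquiv.restrictNormal_commutes σ Lc ⟨x, hx⟩
    have hdiff : σ⁻¹ * σ' ∈ hb.ker := by
      rw [← hfix, IntermediateField.mem_fixingSubgroup_iff]
      intro x hx
      rw [AlgEquiv.mul_apply, hagree x hx]
      exact σ.symm_apply_apply x
    have hχ' : cycloChar p σ' = 1 := by
      have := hdiff.1
      rw [_root_.map_mul, _root_.map_inv, hσ, inv_one, one_mul] at this
      exact this
    have hbσ' : b σ' = 0 := by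
      by_cases hqp : q = p
      · subst hqp
        refine h5 A hA σ' ?_ hχ'
        obtain ⟨x, -, rfl⟩ := hσ'I
        exact x.2
      · exact h4 q hq hqp A hA σ' hσ'I hχ'
    have hσ'ker : σ' ∈ hb.ker := ⟨hχ', hbσ'⟩
    have : σ = σ' * (σ⁻¹ * σ')⁻¹ := by group
    rw [hfix, this]
    exact hb.ker.mul_mem hσ'ker (hb.ker.inv_mem hdiff)
  · -- twist
    intro τ σ k hσ hk
    rw [mem_fixingSubgroup_Kc_iff] at hσ
    rw [hfix]
    have hk' := natCast_eq_cycloChar hk
    have hσk : cycloChar p (σ ^ k) = 1 := by rw [_root_.map_pow, hσ, one_pow]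
    have hconj : cycloChar p (τ * σ ^ k * τ⁻¹) = 1 := by
      rw [_root_.map_mul, _root_.map_mul, hσk, mul_one, _root_.map_inv, mul_inv_cancel]
    have hinv : cycloChar p σ⁻¹ = 1 := by rw [_root_.map_inv, hσ, inv_one]
    refine ⟨by rw [_root_.map_mul, hconj, hinv, one_mul], ?_⟩
    rw [hb.add _ _ hconj hinv, hb.conj τ _ hσk, hb.map_pow hσ, hb.map_inv hσ, hk',
      ← mul_assoc, Units.val_inv_eq_inv_val]
    have hu : ((cycloChar p τ : (ZMod p)ˣ) : ZMod p) ≠ 0 := (cycloChar p τ).ne_zero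
    rw [inv_mul_cancel₀ hu, one_mul, add_neg_cancel]

end Fermat.Agent.S14x.Glue
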