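import Mathlib
import Fermat.Agent.S14x.H24_Reduction

/-!
# S14 / GLUE (helper24): the Galois side

From a function `b : Γ → 𝔽_p` as in `Core p` we build the open normal subgroup
`H = {σ | χ σ = 1 ∧ b σ = 0}` of `Γ = Gal(ℚ̄/ℚ)`, and reduce `Core p` to a statement
(`ConcreteNoL p`) about intermediate fields `K = ℚ(ζ_p) ≤ L` of `ℚ̄ / ℚ` and their fixing subgroups.
-/

set_option autoImplicit false
set_option linter.unusedSectionVars false
set_option linter.unusedVariables false
set_option linter.style.haveILetI false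

namespace Fermat.Agent.S14x.Glue

open ExtCitation IntermediateField

/-- `ℚ̄`. -/
abbrev Qb : Type := AlgebraicClosure ℚ

variable (p : ℕ) [Fact p.Prime]

/-- The hypotheses (additivity, twist, open kernel) of `Core p` on a function `b`. -/
structure BHyp (b : GQ → ZMod p) : Prop where
  add : ∀ σ τ : GQ, cycloChar p σ = 1 → cycloChar p τ = 1 → b (σ * τ) = b σ + b τ
  conj : ∀ τ σ : GQ, cycloChar p σ = 1 →
    b (τ * σ * τ⁻¹) = (((cycloChar p τ)⁻¹ : (ZMod p)ˣ) : ZMod p) * b σ
  isOpen : IsOpen {σ : GQ | cycloChar p σ = 1 ∧ b σ = 0}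

variable {p}

namespace BHyp

variable {b : GQ → ZMod p} (hb : BHyp p b)

include hb

theorem map_one : b 1 = 0 := by
  have h := hb.add 1 1 (_root_.map_one _) (_root_.map_one _)
  rw [mul_one] at h
  exact left_eq_add.mp h

theorem map_inv {σ : GQ} (hσ : cycloChar p σ = 1) : b σ⁻¹ = -b σ := by
  have hσ' : cycloChar p σ⁻¹ = 1 := by rw [_root_.map_inv, hσ, inv_one]
  have h := hb.add σ σ⁻¹ hσ hσ'
  rw [mul_inv_cancel, hb.map_one] at h
  exact eq_neg_of_add_eq_zero_right h.symm

theorem map_pow {σ : GQ} (hσ : cycloChar p σ = 1) (n : ℕ) : b (σ ^ n) = n * b σ := by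
  induction n with
  | zero => simp [hb.map_one]
  | succ n ih =>
    have h1 : cycloChar p (σ ^ n) = 1 := by rw [_root_.map_pow, hσ, one_pow]
    rw [pow_succ, hb.add _ _ h1 hσ, ih]
    push_cast
    ring

/-- The subgroup `H = {σ | χ σ = 1 ∧ b σ = 0}`. -/
def ker : Subgroup GQ where
  carrier := {σ : GQ | cycloChar p σ = 1 ∧ b σ = 0}
  one_mem' := ⟨_root_.map_one _, hb.map_one⟩
  mul_mem' := by
    rintro σ τ ⟨h1, h2⟩ ⟨h3, h4⟩
    refine ⟨by rw [_root_.map_mul, h1, h3, one_mul], ?_⟩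
    rw [hb.add σ τ h1 h3, h2, h4, add_zero]
  inv_mem' := by
    rintro σ ⟨h1, h2⟩
    refine ⟨by rw [_root_.map_inv, h1, inv_one], ?_⟩
    rw [hb.map_inv h1, h2, neg_zero]

theorem mem_ker {σ : GQ} : σ ∈ hb.ker ↔ cycloChar p σ = 1 ∧ b σ = 0 := Iff.rfl

theorem ker_normal : hb.ker.Normal := by
  refine ⟨fun σ hσ τ => ?_⟩
  obtain ⟨h1, h2⟩ := hσ
  refine ⟨?_, ?_⟩
  · rw [_root_.map_mul, _root_.map_mul, h1, mul_one, _root_.map_inv, mul_inv_cancel]
  · rw [hb.conj τ σ h1, h2, mul_zero]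

theorem ker_isOpen : IsOpen (hb.ker : Set GQ) := hb.isOpen

theorem ker_isClosed : IsClosed (hb.ker : Set GQ) :=
  hb.ker.isClosed_of_isOpen hb.ker_isOpen

theorem ker_le : hb.ker ≤ (cycloChar p).ker := fun σ hσ => MonoidHom.mem_ker.mpr hσ.1

end BHyp


/-! ### The cyclotomic field `K = ℚ(ζ_p)` inside `ℚ̄` -/

section Cyclo

variable (p)

theorem exists_zeta : ∃ ζ : Qb, IsPrimitiveRoot ζ p := by
  have hpp : p.Prime := Fact.out
  haveI : NeZero p := ⟨hpp.ne_zero⟩
  haveI : NeZero (p : Qb) := ⟨Nat.cast_ne_zero.mpr hpp.ne_zero⟩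
  exact HasEnoughRootsOfUnity.exists_primitiveRoot Qb p

/-- A primitive `p`-th root of unity in `ℚ̄`. -/
noncomputable def zeta : Qb := (exists_zeta p).choose

theorem zeta_spec : IsPrimitiveRoot (zeta p) p := (exists_zeta p).choose_spec

/-- `K = ℚ(ζ_p)` as a subfield of `ℚ̄`. -/
noncomputable def Kc : IntermediateField ℚ Qb := IntermediateField.adjoin ℚ {zeta p}

variable {p}

/-- The defining property of the cyclotomic character. -/
theorem apply_zeta (σ : GQ) : σ (zeta p) = zeta p ^ ((cycloChar p σ : (ZMod p)ˣ) : ZMod p).val := by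
  have hpp : p.Prime := Fact.out
  haveI : NeZero p := ⟨hpp.ne_zero⟩
  have hζ := zeta_spec p
  have hmem : hζ.toRootsOfUnity.1 ∈ rootsOfUnity p Qb := hζ.toRootsOfUnity.2
  have hspec := modularCyclotomicCharacter.spec Qb (card_rootsOfUnity_eq_self p)
    (σ : Qb ≃+* Qb) hmem
  simp only [IsPrimitiveRoot.val_toRootsOfUnity_coe] at hspec
  exact hspec

theorem natCast_eq_cycloChar {τ : GQ} {k : ℕ} (h : τ (zeta p) = zeta p ^ k) :
    (k : ZMod p) = ((cycloChar p τ : (ZMod p)ˣ) : ZMod p) := by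
  have hpp : p.Prime := Fact.out
  haveI : NeZero p := ⟨hpp.ne_zero⟩
  have hζ := zeta_spec p
  rw [apply_zeta τ] at h
  have hfin : IsOfFinOrder (zeta p) := isOfFinOrder_iff_pow_eq_one.mpr ⟨p, hpp.pos, hζ.pow_eq_one⟩
  have h2 := hfin.pow_eq_pow_iff_modEq.mp h
  rw [← hζ.eq_orderOf] at h2
  have h3 := (ZMod.natCast_eq_natCast_iff _ _ _).mpr h2
  rw [← h3, ZMod.natCast_val, ZMod.cast_id', id]

theorem cycloChar_eq_one_iff (σ : GQ) : cycloChar p σ = 1 ↔ σ (zeta p) = zeta p := by
  have hpp : p.Prime := Fact.out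
  haveI : NeZero p := ⟨hpp.ne_zero⟩
  haveI : Fact (1 < p) := ⟨hpp.one_lt⟩
  constructor
  · intro h
    rw [apply_zeta σ, h, Units.val_one, ZMod.val_one, pow_one]
  · intro h
    have h1 : σ (zeta p) = zeta p ^ 1 := by rw [h, pow_one]
    have h2 := natCast_eq_cycloChar h1
    apply Units.ext
    rw [← h2, Nat.cast_one, Units.val_one]

theorem mem_fixingSubgroup_Kc_iff (σ : GQ) :
    σ ∈ (Kc p).fixingSubgroup ↔ cycloChar p σ = 1 := by
  rw [cycloChar_eq_one_iff, IntermediateField.mem_fixingSubgroup_iff]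
  constructor
  · intro h
    exact h _ (IntermediateField.mem_adjoin_simple_self ℚ (zeta p))
  · intro h x hx
    have hle : Kc p ≤ IntermediateField.fixedField (Subgroup.zpowers σ) := by
      rw [Kc, IntermediateField.adjoin_simple_le_iff, IntermediateField.mem_fixedField_iff]
      intro f hf
      obtain ⟨n, rfl⟩ := Subgroup.mem_zpowers_iff.mp hf
      have h1 : ∀ m : ℕ, (σ ^ m) (zeta p) = zeta p := by
        intro m
        induction m with
        | zero => simp
        | succ m ih => rw [pow_succ, AlgEquiv.mul_apply, h, ih]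
      have h2 : (σ⁻¹) (zeta p) = zeta p := by
        conv_lhs => rw [← h]
        exact σ.symm_apply_apply _
      have h3 : ∀ m : ℕ, ((σ⁻¹) ^ m) (zeta p) = zeta p := by
        intro m
        induction m with
        | zero => simp
        | succ m ih => rw [pow_succ, AlgEquiv.mul_apply, h2, ih]
      rcases Int.eq_nat_or_neg n with ⟨m, rfl | rfl⟩
      · rw [zpow_natCast]; exact h1 m
      · rw [zpow_neg, zpow_natCast, ← inv_pow]; exact h3 m
    have := (IntermediateField.mem_fixedField_iff _ _).mp (hle hx) σ (Subgroup.mem_zpowers σ)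
    exact this

theorem fixingSubgroup_Kc : (Kc p).fixingSubgroup = (cycloChar p).ker := by
  ext σ
  rw [mem_fixingSubgroup_Kc_iff, MonoidHom.mem_ker]

end Cyclo

end Fermat.Agent.S14x.Glue
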