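import Fermat.Agent.S14x.Glue.H24_Concrete

/-!
# S14 / GLUE (helper24), leaf (G-b): a valuation subring of `ℚ̄` over a prime of `𝓞 L`

For an intermediate field `L` of `ℚ̄ / ℚ` which is a number field and a nonzero prime ideal `P` of
its ring of integers, there are a prime number `q` and a valuation subring `A` of `ℚ̄` lying over
`q` whose maximal ideal contains (the image of) `P`.
-/

set_option autoImplicit false
set_option linter.unusedSectionVars false
set_option linter.unusedVariables false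
set_option linter.style.haveILetI false

namespace Fermat.Agent.S14x.Glue

open NumberField

/-- **(G-b)** A valuation subring of `ℚ̄` over a given nonzero prime of `𝓞 L`. -/
theorem exists_valuationSubring_of_prime (Lc : IntermediateField ℚ Qb) [NumberField ↥Lc]
    (P : Ideal (𝓞 ↥Lc)) (hP : P.IsPrime) (hP0 : P ≠ ⊥) :
    ∃ (q : ℕ) (A : ValuationSubring Qb), q.Prime ∧ A.LiesOverPrime q ∧
      ∀ x : 𝓞 ↥Lc, x ∈ P → (((x : ↥Lc) : Qb)) ∈ A.nonunits := by
  classical
  -- the embedding of `𝓞 L` into `ℚ̄`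
  set ι : 𝓞 ↥Lc →+* Qb := (algebraMap ↥Lc Qb).comp (algebraMap (𝓞 ↥Lc) ↥Lc) with hι
  have hιinj : Function.Injective ι :=
    (algebraMap ↥Lc Qb).injective.comp (RingOfIntegers.coe_injective)
  have hιapply : ∀ x : 𝓞 ↥Lc, ι x = (((x : ↥Lc) : Qb)) := fun x => rfl
  set I : Ideal ι.range := P.map ι.rangeRestrict with hI
  have hItop : I ≠ ⊤ := by
    intro h
    have h1 : (1 : ι.range) ∈ I := by rw [h]; trivial
    rw [hI, Ideal.mem_map_iff_of_surjective _ ι.rangeRestrict_surjective] at h1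
    obtain ⟨x, hx, hx1⟩ := h1
    have h2 : ι x = ι 1 := by
      have := congrArg Subtype.val hx1
      simpa using this
    have h3 : x = 1 := hιinj h2
    rw [h3] at hx
    exact hP.ne_top ((Ideal.eq_top_iff_one P).mpr hx)
  obtain ⟨A, -, hA⟩ := Ideal.image_subset_nonunits_valuationSubring I hItop
  have hmem : ∀ x : 𝓞 ↥Lc, x ∈ P → ι x ∈ A.nonunits := by
    intro x hx
    apply hA
    exact ⟨ι.rangeRestrict x, Ideal.mem_map_of_mem _ hx, rfl⟩
  -- a positive integer in `P`
  have hn0 : Ideal.absNorm P ≠ 0 := fun h => hP0 (Ideal.absNorm_eq_zero_iff.mp h)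
  have hnmem : ((Ideal.absNorm P : ℕ) : Qb) ∈ A.nonunits := by
    have h1 := hmem _ (Ideal.absNorm_mem P)
    have h2 : ι ((Ideal.absNorm P : ℕ) : 𝓞 ↥Lc) = ((Ideal.absNorm P : ℕ) : Qb) := map_natCast ι _
    rwa [h2] at h1
  obtain ⟨q, hq, hqA⟩ := exists_prime_liesOver A (Nat.pos_of_ne_zero hn0) hnmem
  exact ⟨q, A, hq, hqA, fun x hx => by rw [← hιapply]; exact hmem x hx⟩

end Fermat.Agent.S14x.Glue
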